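import Fermat.Agent.S24.JD
import Fermat.Agent.Gateway.Dict.LevelCompat

/-!
# P-S34 phase 2 (S35 clause 2), package (P2-d), part 2a (helper40): translates of `j(d z)` by
`diag(q, 1)`

For the action `(g • f)(z) = f(g⁻¹ z)`:
* `diagGL_smul_jd_mul` : `diag(q,1) • j(q d z) = j(d z)`;
* `exists_diagGL_smul_jd_eq` : for `d` prime to `q`, `diag(q,1) • j(d z) = g₀ • j(q d z)` for some
  `g₀ ∈ SL(2, ℤ)` (the Atkin-Lehner phenomenon);
* `diagGL_smul_jd_one` : `diag(q,1) • j(z) = S⁻¹ • j(q z)`;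
* `diagGL_smul_jd_mem_cuspAlg` : all `SL(2,ℤ)`-translates of `diag(q,1) • j(d z)`, `d ∣ N q`, are
  cusp functions of level `N q`.
-/

set_option autoImplicit false

open UpperHalfPlane hiding I
open Complex
open scoped MatrixGroups

namespace Fermat.Agent.S35x.Push

open Fermat.Agent.S24 Fermat.Agent.S24.JLevel Fermat.Agent.S24.JD Fermat.Agent.S24.Embed
open Fermat.Agent.Gateway.Dict.LevelCompat

variable (q : ℕ) [NeZero q]

/-- `diag(q,1) • j(q d z) = j(d z)`. -/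
theorem diagGL_smul_jd_mul (d : ℕ) [NeZero d] : diagGL q • jd (q * d) = jd d := by
  rw [← smul_jd q d, smul_inv_smul]

/-- Coordinates of `diag(q,1)⁻¹ • z`. -/
theorem coe_diagGL_inv_smul (z : ℍ) : (((diagGL q)⁻¹ • z : ℍ) : ℂ) = (z : ℂ) / q := by
  have h := coe_diagGL_smul q ((diagGL q)⁻¹ • z)
  rw [smul_inv_smul] at h
  have hq : (q : ℂ) ≠ 0 := Nat.cast_ne_zero.mpr (NeZero.ne q)
  rw [h]
  field_simp

/-- `jFn` at two points of the upper half plane related by an element of `SL(2, ℤ)`. -/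
theorem jFn_eq_of_coe_eq (γ : SL(2, ℤ)) (w w' : ℍ)
    (h : (w' : ℂ) = ((γ 0 0 : ℂ) * w + (γ 0 1 : ℂ)) / ((γ 1 0 : ℂ) * w + (γ 1 1 : ℂ))) :
    jFn w' = jFn w := by
  have : w' = γ • w := UpperHalfPlane.ext (by rw [h, Stabilizer.coe_sl_smul])
  rw [this, jFn_smul]

/-- For `d` prime to `q`, `diag(q,1) • j(d z)` is an `SL(2, ℤ)`-translate of `j(q d z)`. -/
theorem exists_diagGL_smul_jd_eq (d : ℕ) [NeZero d] (hcop : Nat.Coprime q d) :
    ∃ g₀ : SL(2, ℤ), diagGL q • jd d = g₀ • jd (q * d) := by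
  -- `a q - t d = 1`
  obtain ⟨a, t, hat⟩ : ∃ a t : ℤ, a * q - t * d = 1 := by
    have h := Int.gcd_eq_gcd_ab (q : ℤ) (d : ℤ)
    have hg : Int.gcd (q : ℤ) (d : ℤ) = 1 := by
      rw [Int.gcd_natCast_natCast]; exact hcop
    rw [hg] at h
    refine ⟨Int.gcdA q d, -Int.gcdB q d, ?_⟩
    push_cast at h
    linarith
  -- `h₀ = g₀⁻¹ = [[a, t], [d, q]]`, `γ = [[q a, d t], [1, 1]]`
  let h₀ : SL(2, ℤ) := ⟨!![a, t; (d : ℤ), (q : ℤ)], by
    rw [Matrix.det_fin_two_of]; linarith⟩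
  let γ : SL(2, ℤ) := ⟨!![(q : ℤ) * a, (d : ℤ) * t; 1, 1], by
    rw [Matrix.det_fin_two_of]; linarith⟩
  refine ⟨h₀⁻¹, ?_⟩
  apply HolFun.ext
  intro z
  rw [HolFun.smul_apply, HolFun.sl_smul_apply, inv_inv, jd_apply', jd_apply']
  -- compare the two points
  symm
  refine jFn_eq_of_coe_eq γ _ _ ?_
  rw [coe_scaleH, coe_scaleH, coe_diagGL_inv_smul, Stabilizer.coe_sl_smul]
  have hq : (q : ℂ) ≠ 0 := Nat.cast_ne_zero.mpr (NeZero.ne q)
  have hden := Stabilizer.sl_denom_ne_zero h₀ z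
  have e00 : (h₀ 0 0 : ℤ) = a := rfl
  have e01 : (h₀ 0 1 : ℤ) = t := rfl
  have e10 : (h₀ 1 0 : ℤ) = d := rfl
  have e11 : (h₀ 1 1 : ℤ) = q := rfl
  have g00 : (γ 0 0 : ℤ) = q * a := rfl
  have g01 : (γ 0 1 : ℤ) = d * t := rfl
  have g10 : (γ 1 0 : ℤ) = 1 := rfl
  have g11 : (γ 1 1 : ℤ) = 1 := rfl
  rw [e10, e11] at hden
  rw [e00, e01, e10, e11, g00, g01, g10, g11]
  push_cast at hden ⊢
  have hden2 : (1 : ℂ) * ((d : ℂ) * ((z : ℂ) / q)) + 1 ≠ 0 := by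
    have : (1 : ℂ) * ((d : ℂ) * ((z : ℂ) / q)) + 1 = ((d : ℂ) * z + q) / q := by
      field_simp
    rw [this]
    exact div_ne_zero hden hq
  field_simp

/-- `diag(q,1) • j(z) = S⁻¹ • j(q z)`. -/
theorem diagGL_smul_jd_one : diagGL q • jd 1 = ModularGroup.S⁻¹ • jd q := by
  apply HolFun.ext
  intro z
  rw [HolFun.smul_apply, HolFun.sl_smul_apply, inv_inv, jd_apply', jd_apply']
  symm
  -- `q * (S z) = S (z / q)`
  refine jFn_eq_of_coe_eq ModularGroup.S _ _ ?_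
  rw [coe_scaleH, coe_scaleH, coe_diagGL_inv_smul, Stabilizer.coe_sl_smul]
  have hq : (q : ℂ) ≠ 0 := Nat.cast_ne_zero.mpr (NeZero.ne q)
  have hz : (z : ℂ) ≠ 0 := UpperHalfPlane.ne_zero z
  simp [ModularGroup.S]
  field_simp

/-- For `q` prime and `d ∣ N q`, all `SL(2, ℤ)`-translates of `diag(q,1) • j(d z)` are cusp functions
of level `N q`. -/
theorem diagGL_smul_jd_mem_cuspAlg (hq : q.Prime) (N : ℕ) {d : ℕ} [NeZero d] (hd : d ∣ N * q) :
    diagGL q • jd d ∈ cuspAlg (N * q) := by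
  by_cases hqd : q ∣ d
  · obtain ⟨d', rfl⟩ := hqd
    have hd'0 : d' ≠ 0 := fun h => NeZero.ne (q * d') (by rw [h, mul_zero])
    have : NeZero d' := ⟨hd'0⟩
    rw [diagGL_smul_jd_mul]
    exact jd_mem_cuspAlg (dvd_trans (Dvd.intro_left q rfl) hd)
  · have hcop : Nat.Coprime q d := (Nat.Prime.coprime_iff_not_dvd hq).mpr hqd
    obtain ⟨g₀, hg₀⟩ := exists_diagGL_smul_jd_eq q d hcop
    rw [hg₀]
    have hdN : d ∣ N := (Nat.Coprime.dvd_of_dvd_mul_right hcop.symm) hd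
    have hqd' : q * d ∣ N * q := by
      rw [mul_comm N q]
      exact Nat.mul_dvd_mul_left q hdN
    exact smul_mem_cuspAlg (jd_mem_cuspAlg hqd') g₀

/-- For `q` prime, `diag(q,1)` maps `PN (N q) = ℂ[j(d z) : d ∣ N q]` into the algebra of functions
all of whose translates are cusp functions of level `N q`. -/
theorem diagGL_smul_mem_cuspAlg_of_mem_PN (hq : q.Prime) (N : ℕ) {a : HolFun}
    (ha : a ∈ PN (N * q)) : diagGL q • a ∈ cuspAlg (N * q) := by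
  unfold PN at ha
  induction ha using Algebra.adjoin_induction with
  | mem x hx =>
    obtain ⟨d, hd0, hd, rfl⟩ := hx
    exact diagGL_smul_jd_mem_cuspAlg q hq N hd
  | algebraMap c =>
    rw [HolFun.smul_algebraMap]
    exact Subalgebra.algebraMap_mem _ c
  | add x y _ _ hx hy =>
    rw [smul_add]
    exact Subalgebra.add_mem _ hx hy
  | mul x y _ _ hx hy =>
    rw [smul_mul']
    exact Subalgebra.mul_mem _ hx hy

end Fermat.Agent.S35x.Push
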