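import Fermat.Agent.S35x.Push.AtkinLehner
import Fermat.Agent.Gateway.Dict.NormAlpha
import Fermat.Agent.Gateway.Theta.HeckeCore
import Fermat.Agent.S41.Degeneracy.P1

/-!
# P-S34 phase 2 (S35 clause 2), package (P2-d), part 2b (helper40): the norm along `β`

For `q` prime, `q ∤ N`: the norm along `heckeBetaBar ℂ N q : FC N → FC (N q)` (`f(z) ↦ f(q z)`) is
the product over the cosets `Γ₀(N) ⧸ range (degConj N q)` of the conjugates of the twisted
embedding `embB N q f = diag(q,1) • embC (N q) f` (the function `z ↦ (embC f)(z / q)`):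

`embC N (Norm_β f) = ∏_x (r x) • diag(q,1) • embC (N q) f`.
-/

set_option autoImplicit false
set_option linter.style.haveILetI false
set_option linter.unusedSectionVars false

noncomputable section

open UpperHalfPlane CongruenceSubgroup IntermediateField Polynomial ModularCurve AlgebraicCurve
open scoped MatrixGroups

namespace Fermat.Agent.S35x.Push

open Fermat.Agent.S24 Fermat.Agent.S24.MerFun Fermat.Agent.S24.CuspOrd
open Fermat.Agent.S24.JLevel Fermat.Agent.S24.JD Fermat.Agent.S24.Embed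
open Fermat.Agent.Gateway.Dict Fermat.Agent.Gateway.Dict.SetupC Fermat.Agent.Gateway.Dict.ConjAbs
open Fermat.Agent.Gateway.Dict.EmbedC Fermat.Agent.Gateway.Dict.NormAlpha
open Fermat.Agent.Gateway.Dict.LevelCompat Fermat.Agent.Gateway.ThetaHecke
open Fermat.Agent.S41

variable (N q : ℕ) [NeZero N] [NeZero q]

/-- The twisted embedding at level `N q`: `f ↦ diag(q,1) • embC (N q) f`, the function
`z ↦ (embC f)(z / q)`. -/
def embB : FC (N * q) →+* MerFun :=
  (MulSemiringAction.toRingHom GL(2, ℝ)⁺ MerFun (diagGL q)).comp (embC (N * q))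

theorem embB_apply (f : FC (N * q)) : embB N q f = diagGL q • embC (N * q) f := rfl

/-- `embB ∘ β = embC N`. -/
theorem embB_heckeBetaBar (e : FC N) : embB N q (heckeBetaBar ℂ N q e) = embC N e := by
  rw [embB_apply, embC_heckeBetaBar, smul_inv_smul]

/-- The range of `degConj`, i.e. `Γ₀(N) ∩ Γ⁰(q)`, as a subgroup of `Γ₀(N)`. -/
abbrev GamB : Subgroup ↥(Gamma0 N) := (degConj N q).range

/-- `degConj x * diag(q,1) = diag(q,1) * x` in `GL(2,ℝ)⁺`. -/
theorem slToGLPos_degConj_mul (x : Gamma0 (N * q)) :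
    HolFun.slToGLPos ((degConj N q x : Gamma0 N) : SL(2, ℤ)) * diagGL q
      = diagGL q * HolFun.slToGLPos (x : SL(2, ℤ)) := by
  apply Subtype.ext
  apply Units.ext
  have h := q_mul_degSL_one_zero N q x
  have hR : ((q : ℝ)) * ((degSL N q x 1 0 : ℤ) : ℝ) = (((x : SL(2, ℤ)) 1 0 : ℤ) : ℝ) := by
    exact_mod_cast congrArg (Int.cast : ℤ → ℝ) h
  ext i j
  fin_cases i <;> fin_cases j
  · simp [HolFun.slToGLPos, coe_diagGL, diagGL'_val, Matrix.mul_apply, Fin.sum_univ_two]
    ring
  · simp [HolFun.slToGLPos, coe_diagGL, diagGL'_val, Matrix.mul_apply, Fin.sum_univ_two]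
  · simp [-degSL_one_zero, HolFun.slToGLPos, coe_diagGL, diagGL'_val, Matrix.mul_apply,
      Fin.sum_univ_two]
    rw [mul_comm]
    exact hR
  · simp [HolFun.slToGLPos, coe_diagGL, diagGL'_val, Matrix.mul_apply, Fin.sum_univ_two]

theorem hfix_beta : ∀ γ ∈ GamB N q, ∀ f : FC (N * q), γ • embB N q f = embB N q f := by
  rintro _ ⟨x, rfl⟩ f
  rw [coe_smul_merFun, embB_apply, sl_smul_eq, ← mul_smul, slToGLPos_degConj_mul, mul_smul,
    ← sl_smul_eq, embC_fixed (N * q) x.2]

/-- The value of the twisted embedding on `j`. -/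
theorem embB_jF : embB N q (jF (N * q)) = algebraMap HolFun MerFun (ModularGroup.S⁻¹ • jd q) := by
  rw [embB_apply, embC_jF, MerFun.smul_algebraMap, ← jd_one_eq_jHol, diagGL_smul_jd_one]

/-- Conjugation of `γ` by `S`: the lower left entry is `- γ 0 1`. -/
theorem S_mul_mul_S_inv_one_zero (γ : SL(2, ℤ)) :
    (ModularGroup.S * γ * ModularGroup.S⁻¹) 1 0 = - γ 0 1 := by
  rw [Matrix.SpecialLinearGroup.coe_mul, Matrix.SpecialLinearGroup.coe_mul,
    Matrix.SpecialLinearGroup.SL2_inv_expl, Matrix.mul_apply, Fin.sum_univ_two,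
    Matrix.mul_apply, Matrix.mul_apply, Fin.sum_univ_two, Fin.sum_univ_two]
  simp [ModularGroup.S]

variable [Fact q.Prime]

theorem hstab_beta (γ : ↥(Gamma0 N)) (h : ∀ f : FC (N * q), γ • embB N q f = embB N q f) :
    γ ∈ GamB N q := by
  have h1 := h (jF (N * q))
  rw [embB_jF, coe_smul_merFun, MerFun.sl_smul_algebraMap] at h1
  have h2 : (γ : SL(2, ℤ)) • ModularGroup.S⁻¹ • jd q = ModularGroup.S⁻¹ • jd q :=
    IsFractionRing.injective HolFun MerFun h1
  have h3 : (ModularGroup.S * (γ : SL(2, ℤ)) * ModularGroup.S⁻¹) • jd q = jd q := by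
    rw [mul_smul, mul_smul, h2, smul_inv_smul]
  have h4 := mem_Gamma0_of_smul_jd_eq h3
  rw [Gamma0_mem, S_mul_mul_S_inv_one_zero, ZMod.intCast_zmod_eq_zero_iff_dvd, dvd_neg] at h4
  exact (Fermat.Agent.S41.Degeneracy.mem_range_degConj_iff q N γ).mpr h4

/-- All `SL(2, ℤ)`-translates of the twisted embedding are quotients of cusp functions of level
`N q`. -/
theorem embB_mem_cuspAllField (f : FC (N * q)) : embB N q f ∈ cuspAllField (N * q) := by
  have hq : q.Prime := Fact.out
  obtain ⟨a, b, ha, hb, hb0, hx, -⟩ := embC_frac_PN (N * q) f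
  intro g
  have ha' := diagGL_smul_mem_cuspAlg_of_mem_PN q hq N ha
  have hb' := diagGL_smul_mem_cuspAlg_of_mem_PN q hq N hb
  refine ⟨g • diagGL q • a, g • diagGL q • b, ha' g, hb' g, ?_, ?_⟩
  · intro h0
    apply hb0
    have h1 : diagGL q • b = 0 := by
      have := congrArg (fun x => g⁻¹ • x) h0
      simpa using this
    have := congrArg (fun x => (diagGL q)⁻¹ • x) h1
    simpa using this
  · rw [embB_apply, hx, smul_div₀', MerFun.smul_algebraMap, MerFun.smul_algebraMap, smul_div₀',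
      MerFun.sl_smul_algebraMap, MerFun.sl_smul_algebraMap]

section WithFintype

variable [Fintype (↥(Gamma0 N) ⧸ GamB N q)]

theorem hfix_beta' (f : FC (N * q)) : ∀ γ ∈ GamB N q, γ • embB N q f = embB N q f :=
  fun γ hγ => hfix_beta N q γ hγ f

/-- Degree and norm along `β = heckeBetaBar ℂ N q`. -/
theorem finrank_and_norm_beta :
    FiniteAlong ℂ (heckeBetaBar ℂ N q) ∧
      finrankAlong ℂ (heckeBetaBar ℂ N q) = Fintype.card (↥(Gamma0 N) ⧸ GamB N q) ∧
      ∀ f : FC (N * q), embC N (Fermat.Agent.Gateway.Kummer.normAlong (heckeBetaBar ℂ N q) f) =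
        ∏ c : ↥(Gamma0 N) ⧸ GamB N q,
          RangeAbs.conj (GamB N q) (embB N q f) (hfix_beta' N q f) c :=
  finrank_and_norm_along (heckeBetaBar ℂ N q) (GamB N q) (embB N q) (embC N)
    (fun e => embB_heckeBetaBar N q e) (hfix_beta N q)
    (fun γ h => hstab_beta N q γ h)
    (fun g e => by rw [coe_smul_merFun, embC_fixed N g.2])
    (cuspAllField (N * q)).toSubring
    (fun g f => smul_mem_cuspAllField (embB_mem_cuspAllField N q f) g)
    (fun _ hx hinv => mem_range_embC_of_invariant N q hx (fun γ hγ => hinv ⟨γ, hγ⟩))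

/-- Version with explicit coset representatives: if `r : X → Γ₀(N)` induces a bijection
`X ≃ Γ₀(N) ⧸ range degConj`, the norm along `β` is the product of the translates by the `r x` of
the twisted embedding. -/
theorem embC_norm_beta_of_bijective {X : Type*} [Fintype X] (r : X → ↥(Gamma0 N))
    (hr : Function.Bijective fun x => (QuotientGroup.mk (r x) : ↥(Gamma0 N) ⧸ GamB N q))
    (f : FC (N * q)) :
    embC N (Fermat.Agent.Gateway.Kummer.normAlong (heckeBetaBar ℂ N q) f) =
      ∏ x : X, ((r x : ↥(Gamma0 N)) : SL(2, ℤ)) • diagGL q • embC (N * q) f := by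
  rw [(finrank_and_norm_beta N q).2.2 f]
  exact (Fintype.prod_bijective _ hr _ _ fun x => rfl).symm

end WithFintype

end Fermat.Agent.S35x.Push
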